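/-
Lib/KW, leaf EXP, generic part (helper257): the `π`-adic expansion at a place of degree one.

For a place `v` of `F / K` with residue field `K` (`v.deg = 1`) and the uniformiser `ϖ v`:

* `val v hv : O_v →+* K`                 the value map (residue);
* `taylor v hv : O_v →+* K⟦X⟧`           `a ↦ ∑ aₙ Xⁿ`, `a₀ = val a`, `a = a₀ + ϖ · a'`, recursively;
* `expansion v hv : F →+* K⸨X⸩`          its extension to the fraction field, with
  `expansion_algebraMap` (`c ↦ C c`), `expansion_unif` (`ϖ ↦ X`) and
  `order_expansion : (expansion v hv f).order = v.ord f` for `f ≠ 0`.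

Mathlib + Prelude `Place` + `Lib/RR/Ord` only.
-/
import Fermat.Agent.Lib.RR.Ord

set_option autoImplicit false

noncomputable section

open AlgebraicCurve

namespace Fermat.Agent.Lib.KW.H257

variable {K F : Type*} [Field K] [Field F] [Algebra K F]

/-! ### The value map -/

section Value

variable (v : Place K F) (hv : v.deg = 1)

include hv in
theorem bijective_algebraMap_residueField :
    Function.Bijective (algebraMap K v.ResidueField) := by
  refine ⟨(algebraMap K v.ResidueField).injective, fun y => ?_⟩
  have h1 : (1 : v.ResidueField) ≠ 0 := one_ne_zero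
  have hspan := (finrank_eq_one_iff_of_nonzero' (1 : v.ResidueField) h1).mp hv
  obtain ⟨c, hc⟩ := hspan y
  exact ⟨c, by rw [← hc, Algebra.smul_def, mul_one]⟩

/-- The value of a regular function at a place of degree one. -/
def val : v.toValuationSubring →+* K :=
  ((RingEquiv.ofBijective (algebraMap K v.ResidueField)
    (bijective_algebraMap_residueField v hv)).symm : v.ResidueField →+* K).comp
      (IsLocalRing.residue v.toValuationSubring)

theorem val_algebraMap (c : K) : val v hv (algebraMap K v.toValuationSubring c) = c := by
  show (RingEquiv.ofBijective (algebraMap K v.ResidueField)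
    (bijective_algebraMap_residueField v hv)).symm
      (IsLocalRing.residue v.toValuationSubring (algebraMap K v.toValuationSubring c)) = c
  rw [RingEquiv.symm_apply_eq]
  rfl

theorem val_eq_zero_iff (a : v.toValuationSubring) :
    val v hv a = 0 ↔ a ∈ IsLocalRing.maximalIdeal v.toValuationSubring := by
  rw [← IsLocalRing.residue_eq_zero_iff]
  show (RingEquiv.ofBijective (algebraMap K v.ResidueField)
    (bijective_algebraMap_residueField v hv)).symm
      (IsLocalRing.residue v.toValuationSubring a) = 0 ↔ _
  rw [RingEquiv.symm_apply_eq, map_zero]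

theorem sub_val_mem (a : v.toValuationSubring) :
    a - algebraMap K v.toValuationSubring (val v hv a) ∈
      IsLocalRing.maximalIdeal v.toValuationSubring := by
  rw [← val_eq_zero_iff v hv, map_sub, val_algebraMap, sub_self]

end Value

/-! ### The uniformiser and the shift -/

section Shift

variable (v : Place K F)

/-- The chosen uniformiser of `O_v`. -/
def unif : v.toValuationSubring :=
  (IsDiscreteValuationRing.exists_irreducible v.toValuationSubring).choose

theorem irreducible_unif : Irreducible (unif v) :=
  (IsDiscreteValuationRing.exists_irreducible v.toValuationSubring).choose_spec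

theorem unif_ne_zero : unif v ≠ 0 := (irreducible_unif v).ne_zero

theorem ord_unif : v.ord ((unif v : v.toValuationSubring) : F) = 1 :=
  v.ord_coe_irreducible (irreducible_unif v)

theorem exists_unif_mul_eq {a : v.toValuationSubring}
    (ha : a ∈ IsLocalRing.maximalIdeal v.toValuationSubring) : ∃ b, unif v * b = a := by
  rw [(irreducible_unif v).maximalIdeal_eq, Ideal.mem_span_singleton'] at ha
  obtain ⟨b, hb⟩ := ha
  exact ⟨b, by rw [mul_comm]; exact hb⟩

variable (hv : v.deg = 1)

/-- `shift a = (a - a(v)) / ϖ`. -/
def shift (a : v.toValuationSubring) : v.toValuationSubring :=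
  (exists_unif_mul_eq v (sub_val_mem v hv a)).choose

theorem unif_mul_shift (a : v.toValuationSubring) :
    unif v * shift v hv a = a - algebraMap K v.toValuationSubring (val v hv a) :=
  (exists_unif_mul_eq v (sub_val_mem v hv a)).choose_spec

theorem shift_eq_of_unif_mul_eq {a b : v.toValuationSubring}
    (h : unif v * b = a - algebraMap K v.toValuationSubring (val v hv a)) :
    shift v hv a = b :=
  mul_left_cancel₀ (unif_ne_zero v) ((unif_mul_shift v hv a).trans h.symm)

theorem shift_add (a b : v.toValuationSubring) :
    shift v hv (a + b) = shift v hv a + shift v hv b := by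
  apply shift_eq_of_unif_mul_eq
  rw [mul_add, unif_mul_shift, unif_mul_shift, map_add, map_add]
  ring

theorem shift_zero : shift v hv 0 = 0 := by
  apply shift_eq_of_unif_mul_eq
  simp

theorem shift_algebraMap (c : K) : shift v hv (algebraMap K v.toValuationSubring c) = 0 := by
  apply shift_eq_of_unif_mul_eq
  rw [val_algebraMap, mul_zero, sub_self]

theorem shift_one : shift v hv 1 = 0 := by
  have := shift_algebraMap v hv 1
  rwa [map_one] at this

theorem shift_mul (a b : v.toValuationSubring) :
    shift v hv (a * b) =
      shift v hv a * b + algebraMap K v.toValuationSubring (val v hv a) * shift v hv b := by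
  apply shift_eq_of_unif_mul_eq
  have h1 := unif_mul_shift v hv a
  have h2 := unif_mul_shift v hv b
  rw [map_mul, map_mul]
  linear_combination b * h1 + algebraMap K v.toValuationSubring (val v hv a) * h2

theorem shift_algebraMap_mul (c : K) (a : v.toValuationSubring) :
    shift v hv (algebraMap K v.toValuationSubring c * a) =
      algebraMap K v.toValuationSubring c * shift v hv a := by
  rw [shift_mul, shift_algebraMap, zero_mul, zero_add, val_algebraMap]

theorem val_unif : val v hv (unif v) = 0 := by
  rw [val_eq_zero_iff, (irreducible_unif v).maximalIdeal_eq]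
  exact Ideal.mem_span_singleton_self _

theorem shift_unif : shift v hv (unif v) = 1 := by
  apply shift_eq_of_unif_mul_eq
  rw [val_unif, map_zero, sub_zero, mul_one]

end Shift

/-! ### The Taylor expansion of a regular function -/

section Taylor

open PowerSeries

variable (v : Place K F) (hv : v.deg = 1)

/-- The Taylor series of `a ∈ O_v` in the uniformiser `ϖ`. -/
def taylorFun (a : v.toValuationSubring) : PowerSeries K :=
  PowerSeries.mk fun n => val v hv ((shift v hv)^[n] a)

theorem coeff_taylorFun (a : v.toValuationSubring) (n : ℕ) :
    PowerSeries.coeff n (taylorFun v hv a) = val v hv ((shift v hv)^[n] a) :=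
  PowerSeries.coeff_mk _ _

theorem coeff_zero_taylorFun (a : v.toValuationSubring) :
    PowerSeries.coeff 0 (taylorFun v hv a) = val v hv a := by
  rw [coeff_taylorFun]
  rfl

theorem coeff_succ_taylorFun (a : v.toValuationSubring) (n : ℕ) :
    PowerSeries.coeff (n + 1) (taylorFun v hv a) =
      PowerSeries.coeff n (taylorFun v hv (shift v hv a)) := by
  rw [coeff_taylorFun, coeff_taylorFun, Function.iterate_succ_apply]

theorem taylorFun_eq (a : v.toValuationSubring) :
    taylorFun v hv a =
      PowerSeries.C (val v hv a) + PowerSeries.X * taylorFun v hv (shift v hv a) := by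
  ext n
  cases n with
  | zero =>
    rw [coeff_zero_taylorFun, map_add, PowerSeries.coeff_zero_C, PowerSeries.coeff_zero_X_mul,
      add_zero]
  | succ n =>
    rw [coeff_succ_taylorFun, map_add, PowerSeries.coeff_succ_X_mul, PowerSeries.coeff_C,
      if_neg (Nat.succ_ne_zero n), zero_add]

theorem taylorFun_add (a b : v.toValuationSubring) :
    taylorFun v hv (a + b) = taylorFun v hv a + taylorFun v hv b := by
  ext n
  induction n generalizing a b with
  | zero => rw [map_add, coeff_zero_taylorFun, coeff_zero_taylorFun, coeff_zero_taylorFun, map_add]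
  | succ n ih =>
    rw [map_add, coeff_succ_taylorFun, coeff_succ_taylorFun, coeff_succ_taylorFun, shift_add, ih,
      map_add]

theorem taylorFun_zero : taylorFun v hv 0 = 0 := by
  have h := taylorFun_add v hv 0 0
  rw [add_zero] at h
  exact left_eq_add.mp h

theorem taylorFun_algebraMap (c : K) :
    taylorFun v hv (algebraMap K v.toValuationSubring c) = PowerSeries.C c := by
  rw [taylorFun_eq, shift_algebraMap, taylorFun_zero, mul_zero, add_zero, val_algebraMap]

theorem taylorFun_one : taylorFun v hv 1 = 1 := by
  have := taylorFun_algebraMap v hv 1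
  rwa [map_one, map_one] at this

theorem taylorFun_algebraMap_mul (c : K) (a : v.toValuationSubring) :
    taylorFun v hv (algebraMap K v.toValuationSubring c * a) =
      PowerSeries.C c * taylorFun v hv a := by
  ext n
  induction n generalizing a with
  | zero =>
    rw [coeff_zero_taylorFun, map_mul, val_algebraMap, PowerSeries.coeff_C_mul,
      coeff_zero_taylorFun]
  | succ n ih =>
    rw [coeff_succ_taylorFun, shift_algebraMap_mul, ih, PowerSeries.coeff_C_mul,
      PowerSeries.coeff_C_mul, coeff_succ_taylorFun]

theorem taylorFun_mul (a b : v.toValuationSubring) :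
    taylorFun v hv (a * b) = taylorFun v hv a * taylorFun v hv b := by
  ext n
  induction n generalizing a b with
  | zero =>
    rw [coeff_zero_taylorFun, map_mul, PowerSeries.coeff_zero_eq_constantCoeff, map_mul,
      ← PowerSeries.coeff_zero_eq_constantCoeff, coeff_zero_taylorFun, coeff_zero_taylorFun]
  | succ n ih =>
    have hR : taylorFun v hv a * taylorFun v hv b =
        PowerSeries.C (val v hv a) * taylorFun v hv b +
          PowerSeries.X * (taylorFun v hv (shift v hv a) * taylorFun v hv b) := by
      conv_lhs => rw [taylorFun_eq v hv a]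
      ring
    rw [hR, coeff_succ_taylorFun, shift_mul, taylorFun_add, map_add, map_add, ih,
      taylorFun_algebraMap_mul, PowerSeries.coeff_C_mul, PowerSeries.coeff_C_mul,
      PowerSeries.coeff_succ_X_mul, coeff_succ_taylorFun]
    ring

/-- The Taylor expansion at `v`, as a ring homomorphism. -/
def taylor : v.toValuationSubring →+* PowerSeries K where
  toFun := taylorFun v hv
  map_one' := taylorFun_one v hv
  map_mul' := taylorFun_mul v hv
  map_zero' := taylorFun_zero v hv
  map_add' := taylorFun_add v hv

theorem taylor_apply (a : v.toValuationSubring) : taylor v hv a = taylorFun v hv a := rfl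

theorem taylor_algebraMap (c : K) :
    taylor v hv (algebraMap K v.toValuationSubring c) = PowerSeries.C c :=
  taylorFun_algebraMap v hv c

theorem taylor_unif : taylor v hv (unif v) = PowerSeries.X := by
  rw [taylor_apply, taylorFun_eq, val_unif, shift_unif, taylorFun_one, map_zero, zero_add,
    mul_one]

theorem constantCoeff_taylor (a : v.toValuationSubring) :
    PowerSeries.constantCoeff (taylor v hv a) = val v hv a := by
  rw [← PowerSeries.coeff_zero_eq_constantCoeff, taylor_apply, coeff_zero_taylorFun]

theorem taylor_injective : Function.Injective (taylor v hv) := by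
  rw [injective_iff_map_eq_zero]
  intro a ha
  by_contra h0
  obtain ⟨n, u, rfl⟩ :=
    IsDiscreteValuationRing.eq_unit_mul_pow_irreducible h0 (irreducible_unif v)
  rw [map_mul, map_pow, taylor_unif] at ha
  have h1 : taylor v hv (u : v.toValuationSubring) ≠ 0 := (u.isUnit.map _).ne_zero
  exact mul_ne_zero h1 (pow_ne_zero n PowerSeries.X_ne_zero) ha

end Taylor

/-! ### The expansion of an arbitrary function -/

section Expansion

variable (v : Place K F) (hv : v.deg = 1)

/-- The Taylor expansion with values in Laurent series. -/
def taylorL : v.toValuationSubring →+* LaurentSeries K :=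
  (HahnSeries.ofPowerSeries ℤ K).comp (taylor v hv)

theorem taylorL_apply (a : v.toValuationSubring) :
    taylorL v hv a = HahnSeries.ofPowerSeries ℤ K (taylor v hv a) := rfl

theorem taylorL_injective : Function.Injective (taylorL v hv) := by
  intro a b h
  exact taylor_injective v hv (HahnSeries.ofPowerSeries_injective h)

/-- The `ϖ`-adic expansion at the place `v` of degree one. -/
def expansion : F →+* LaurentSeries K :=
  IsFractionRing.lift (A := v.toValuationSubring) (K := F) (g := taylorL v hv)
    (taylorL_injective v hv)

theorem expansion_coe (a : v.toValuationSubring) :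
    expansion v hv (a : F) = taylorL v hv a :=
  IsFractionRing.lift_algebraMap (taylorL_injective v hv) a

theorem expansion_algebraMap (c : K) :
    expansion v hv (algebraMap K F c) = HahnSeries.C c := by
  have h : algebraMap K F c = ((algebraMap K v.toValuationSubring c : v.toValuationSubring) : F) :=
    rfl
  rw [h, expansion_coe, taylorL_apply, taylor_algebraMap, HahnSeries.ofPowerSeries_C]

theorem expansion_unif :
    expansion v hv ((unif v : v.toValuationSubring) : F) = HahnSeries.single 1 1 := by
  rw [expansion_coe, taylorL_apply, taylor_unif, HahnSeries.ofPowerSeries_X]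

theorem order_taylorL_of_isUnit {u : v.toValuationSubring} (hu : IsUnit u) :
    (taylorL v hv u).order = 0 := by
  have hne : taylorL v hv u ≠ 0 := (hu.map (taylorL v hv)).ne_zero
  have hc : PowerSeries.constantCoeff (taylor v hv u) ≠ 0 := by
    have h1 : IsUnit (PowerSeries.constantCoeff (taylor v hv u)) :=
      (hu.map (taylor v hv)).map PowerSeries.constantCoeff
    exact h1.ne_zero
  apply le_antisymm
  · apply HahnSeries.order_le_of_coeff_ne_zero
    have h2 := HahnSeries.ofPowerSeries_apply_coeff (Γ := ℤ) (taylor v hv u) 0
    rw [Nat.cast_zero] at h2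
    rw [taylorL_apply, h2, PowerSeries.coeff_zero_eq_constantCoeff]
    exact hc
  · rw [HahnSeries.le_order_iff_forall hne]
    intro j hj
    rw [taylorL_apply]
    have := PowerSeries.coeff_coe (taylor v hv u) j
    rw [if_pos hj] at this
    exact this

theorem order_taylorL {a : v.toValuationSubring} (ha : a ≠ 0) :
    (taylorL v hv a).order = v.ord (a : F) := by
  obtain ⟨n, u, rfl⟩ :=
    IsDiscreteValuationRing.eq_unit_mul_pow_irreducible ha (irreducible_unif v)
  have hu0 : taylorL v hv (u : v.toValuationSubring) ≠ 0 :=
    (u.isUnit.map (taylorL v hv)).ne_zero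
  have hX : taylorL v hv (unif v ^ n) = HahnSeries.single (n : ℤ) 1 := by
    rw [taylorL_apply, map_pow, taylor_unif, HahnSeries.ofPowerSeries_X_pow]
  have hX0 : (HahnSeries.single (n : ℤ) (1 : K)) ≠ 0 := HahnSeries.single_ne_zero one_ne_zero
  rw [map_mul, hX, HahnSeries.order_mul hu0 hX0, order_taylorL_of_isUnit v hv u.isUnit,
    HahnSeries.order_single one_ne_zero, zero_add]
  have hun : ((u : v.toValuationSubring) : F) ≠ 0 := by
    intro h
    exact u.ne_zero (Subtype.ext h)
  have hpn : (((unif v : v.toValuationSubring) : F)) ^ n ≠ 0 := by
    apply pow_ne_zero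
    intro h
    exact unif_ne_zero v (Subtype.ext h)
  push_cast
  rw [v.ord_mul hun hpn, v.ord_coe_unit, Fermat.Agent.Lib.RR.ord_pow, ord_unif]
  ring

/-- The expansion computes the order. -/
theorem order_expansion {f : F} (hf : f ≠ 0) : (expansion v hv f).order = v.ord f := by
  rcases v.toValuationSubring.mem_or_inv_mem f with h | h
  · have ha : (⟨f, h⟩ : v.toValuationSubring) ≠ 0 := fun h0 => hf (congrArg Subtype.val h0)
    have := order_taylorL v hv ha
    rw [← expansion_coe] at this
    exact this
  · have hf' : f⁻¹ ≠ 0 := inv_ne_zero hf
    have ha : (⟨f⁻¹, h⟩ : v.toValuationSubring) ≠ 0 := fun h0 => hf' (congrArg Subtype.val h0)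
    have h1 := order_taylorL v hv ha
    rw [← expansion_coe] at h1
    have h2 : expansion v hv f * expansion v hv f⁻¹ = 1 := by
      rw [← map_mul, mul_inv_cancel₀ hf, map_one]
    have hef : expansion v hv f ≠ 0 := (map_ne_zero _).2 hf
    have hef' : expansion v hv f⁻¹ ≠ 0 := (map_ne_zero _).2 hf'
    have h3 := HahnSeries.order_mul hef hef'
    rw [h2, HahnSeries.order_one] at h3
    have h4 : v.ord f⁻¹ = -v.ord f := v.ord_inv f
    have h5 : (expansion v hv f⁻¹).order = v.ord f⁻¹ := h1
    rw [h5, h4] at h3
    linarith

end Expansion

end Fermat.Agent.Lib.KW.H257
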