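/-
Lib/KW, leaf EXP (helper257): `ord_v (dy) = ord_v y - 1` whenever `ord_v y ≠ 0`, at EVERY place of
a function field in one variable over an algebraically closed field of characteristic zero.

Exact statement of `origin/helper650:Fermat/Agent/Lib/KW/Skeleton.lean`
(`Skel.ordDifferential_D_of_ord_ne_zero`).

Proof: the `ϖ`-adic expansion `expansion v hv : F →+* K⸨X⸩` of `Lib/KW/H257/Expansion.lean`
(`order ∘ expansion = ord_v`) + the landed local formula `S24/H84/OrdDiff.lean`.
-/
import Fermat.Agent.Lib.KW.H257.Expansion
import Fermat.Agent.S24.H84.OrdDiff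
import Fermat.Agent.S24.FFSum

set_option autoImplicit false

noncomputable section

namespace Fermat.Agent.Lib.KW.H257

open AlgebraicCurve Polynomial IntermediateField KaehlerDifferential
open Fermat.Agent.S24

variable {K F : Type*} [Field K] [Field F] [Algebra K F] [IsAlgClosed K] [CharZero K]

omit [CharZero K] in
/-- Every place of a function field over an algebraically closed field is induced by a Laurent
expansion with coefficients in `K`. -/
theorem exists_expansion (x : F) [FF.IsCoord K x] (v : Place K F) :
    ∃ σ : F →+* LaurentSeries K,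
      (∀ c : K, σ (algebraMap K F c) = HahnSeries.C c) ∧
      (∀ f : F, f ≠ 0 → (σ f).order = v.ord f) ∧
      ∃ π : F, v.ord π = 1 ∧ σ π = HahnSeries.single 1 1 := by
  have hx : Transcendental K x := FF.IsCoord.transcendental
  have hv : v.deg = 1 := FF.deg_eq_one v hx
  exact ⟨expansion v hv, expansion_algebraMap v hv, fun f hf => order_expansion v hv hf,
    _, ord_unif v, expansion_unif v hv⟩

/-- **EXP**.  `ord_v (dy) = ord_v y - 1` whenever `ord_v y ≠ 0` (characteristic zero, residue
field `K`). -/
theorem ordDifferential_D_of_ord_ne_zero (x : F) [FF.IsCoord K x] (v : Place K F) (y : F)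
    (hy : v.ord y ≠ 0) : v.ordDifferential (D K F y) = v.ord y - 1 := by
  have hx : Transcendental K x := FF.IsCoord.transcendental
  have hv : v.deg = 1 := FF.deg_eq_one v hx
  have : v.DCoordGenerates := H84.place_dCoordGenerates x v
  exact H84.place_ordDifferential_D_of_ord_ne_zero v (expansion v hv) (RingHom.id K)
    (fun c => expansion_algebraMap v hv c) 1 one_pos
    (fun f hf => by rw [order_expansion v hv hf]; simp) y hy

/-- `ord_v (dy) = ord_v (y - a) - 1` whenever `ord_v (y - a) ≠ 0`, `a` a constant. -/
theorem ordDifferential_D_of_ord_sub_ne_zero (x : F) [FF.IsCoord K x] (v : Place K F) (y : F)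
    (a : K) (hy : v.ord (y - algebraMap K F a) ≠ 0) :
    v.ordDifferential (D K F y) = v.ord (y - algebraMap K F a) - 1 := by
  have := ordDifferential_D_of_ord_ne_zero x v _ hy
  rwa [map_sub, Derivation.map_algebraMap, sub_zero] at this

end Fermat.Agent.Lib.KW.H257
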